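import Fermat.Agent.Two.Theta.Poisson
import Mathlib.NumberTheory.GaussSum
import Mathlib.NumberTheory.LegendreSymbol.JacobiSymbol
import Mathlib.Analysis.SpecialFunctions.Complex.CircleAddChar

/-!
# Quadratic Gauss sums modulo an odd prime
-/

set_option autoImplicit false

noncomputable section

namespace Fermat.Agent.Two.Theta

section Prime

variable {p : ℕ} [Fact p.Prime]

/-- The Legendre symbol with values in `ℂ`. -/
def legendreChar (p : ℕ) [Fact p.Prime] : MulChar (ZMod p) ℂ :=
  (quadraticChar (ZMod p)).ringHomComp (Int.castRingHom ℂ)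

theorem legendreChar_sq {a : ZMod p} (ha : a ≠ 0) : legendreChar p (a ^ 2) = 1 := by
  show ((quadraticChar (ZMod p) (a ^ 2) : ℤ) : ℂ) = 1
  rw [quadraticChar_sq_one' ha, Int.cast_one]

variable (hp2 : p ≠ 2)

include hp2

theorem ringChar_ne_two : ringChar (ZMod p) ≠ 2 := by
  rwa [ZMod.ringChar_zmod_n]

/-- A one-variable quadratic Gauss sum. -/
theorem sum_stdAddChar_mul_sq {a : ZMod p} (ha : a ≠ 0) :
    ∑ x : ZMod p, ZMod.stdAddChar (a * x ^ 2) =
      legendreChar p a * gaussSum (legendreChar p) ZMod.stdAddChar := by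
  classical
  have hcard : ∀ t : ZMod p, ((Finset.univ.filter fun x : ZMod p => x ^ 2 = t).card : ℂ) =
      legendreChar p t + 1 := fun t => by
    have h := quadraticChar_card_sqrts (ringChar_ne_two hp2) t
    rw [Set.toFinset_ofPred] at h
    show _ = ((quadraticChar (ZMod p) t : ℤ) : ℂ) + 1
    rw [← Int.cast_one, ← Int.cast_add, ← h, Int.cast_natCast]
  rw [← Finset.sum_fiberwise (g := fun x : ZMod p => x ^ 2)]
  have : ∀ t : ZMod p, ∑ x ∈ Finset.univ.filter (fun x : ZMod p => x ^ 2 = t),
      (ZMod.stdAddChar (a * x ^ 2) : ℂ) =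
      legendreChar p t * ZMod.stdAddChar (a * t) + ZMod.stdAddChar (a * t) := fun t => by
    rw [Finset.sum_congr rfl (g := fun _ => (ZMod.stdAddChar (a * t) : ℂ))
      fun x hx => by rw [(Finset.mem_filter.1 hx).2],
      Finset.sum_const, nsmul_eq_mul, hcard, add_mul, one_mul]
  rw [Finset.sum_congr rfl fun t _ => this t, Finset.sum_add_distrib]
  have h0 : ∑ t : ZMod p, (ZMod.stdAddChar (a * t) : ℂ) = 0 :=
    AddChar.sum_eq_zero_of_ne_one (ZMod.isPrimitive_stdAddChar p ha)
  rw [h0, add_zero]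
  have h := gaussSum_mulShift (legendreChar p) ZMod.stdAddChar (Units.mk0 a ha)
  rw [Units.val_mk0] at h
  have h2 : legendreChar p a * legendreChar p a = 1 := by
    rw [← map_mul, ← sq, legendreChar_sq ha]
  calc ∑ t : ZMod p, legendreChar p t * ZMod.stdAddChar (a * t)
      = gaussSum (legendreChar p) (AddChar.mulShift ZMod.stdAddChar a) := rfl
    _ = _ := by rw [← h, ← mul_assoc, h2, one_mul]

theorem gaussSum_legendreChar_sq :
    gaussSum (legendreChar p) ZMod.stdAddChar ^ 2 = legendreChar p (-1) * (p : ℂ) := by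
  have h1 : legendreChar p ≠ 1 :=
    (MulChar.ringHomComp_ne_one_iff (RingHom.injective_int _)).2
      (quadraticChar_ne_one (ringChar_ne_two hp2))
  rw [gaussSum_sq h1 ((quadraticChar_isQuadratic (ZMod p)).comp _) (ZMod.isPrimitive_stdAddChar p),
    ZMod.card]

end Prime

end Fermat.Agent.Two.Theta
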