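import Mathlib.NumberTheory.ModularForms.JacobiTheta.TwoVariable
import Mathlib.Analysis.Complex.UpperHalfPlane.Basic
import Mathlib.Topology.Algebra.InfiniteSum.Constructions

/-!
# Poisson summation in one variable

Poisson summation with a shift and a linear term.
-/

set_option autoImplicit false

noncomputable section

open Complex Real

namespace Fermat.Agent.Two.Theta

/-- One-dimensional Poisson summation with a shift and a linear term. -/
theorem tsum_exp_shift {τ : ℂ} (hτ : 0 < τ.im) (s z : ℂ) :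
    ∑' n : ℤ, cexp (π * I * τ * (n + s) ^ 2 + 2 * π * I * z * (n + s)) =
      1 / (-I * τ) ^ (1 / 2 : ℂ) *
        ∑' m : ℤ, cexp (2 * π * I * m * s) * cexp (-(π * I) * (m - z) ^ 2 / τ) := by
  have hτ0 : τ ≠ 0 := fun h => by simp [h] at hτ
  have e1 : ∀ n : ℤ, cexp (π * I * τ * (n + s) ^ 2 + 2 * π * I * z * (n + s)) =
      cexp (π * I * τ * s ^ 2 + 2 * π * I * z * s) * jacobiTheta₂_term n (z + τ * s) τ := fun n => by
    rw [jacobiTheta₂_term, ← Complex.exp_add]
    ring_nf
  rw [tsum_congr e1, tsum_mul_left]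
  show _ * jacobiTheta₂ (z + τ * s) τ = _
  rw [jacobiTheta₂_functional_equation, jacobiTheta₂, ← tsum_mul_left, ← tsum_mul_left,
    ← tsum_mul_left]
  refine tsum_congr fun m => ?_
  rw [jacobiTheta₂_term,
    show ∀ a b c : ℂ, cexp a * (1 / (-I * τ) ^ (1 / 2 : ℂ) * cexp b * cexp c) =
      1 / (-I * τ) ^ (1 / 2 : ℂ) * (cexp a * cexp b * cexp c) from fun a b c => by ring,
    ← Complex.exp_add, ← Complex.exp_add, ← Complex.exp_add]
  congr 2
  field_simp
  ring

theorem summable_shift {τ : ℂ} (hτ : 0 < τ.im) (s : ℂ) :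
    Summable fun n : ℤ => ‖cexp (π * I * τ * (n + s) ^ 2)‖ := by
  have e : ∀ n : ℤ, cexp (π * I * τ * (n + s) ^ 2) =
      cexp (π * I * τ * s ^ 2) * jacobiTheta₂_term n (τ * s) τ := fun n => by
    rw [jacobiTheta₂_term, ← Complex.exp_add]
    ring_nf
  simp_rw [e]
  exact (((summable_jacobiTheta₂_term_iff _ _).2 hτ).mul_left _).norm

theorem im_neg_one_div {τ : ℂ} (hτ : 0 < τ.im) : 0 < (-1 / τ).im := by
  rw [neg_div, Complex.neg_im, one_div, Complex.inv_im, neg_div, neg_neg]
  exact div_pos hτ (Complex.normSq_pos.2 fun h => by simp [h] at hτ)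

end Fermat.Agent.Two.Theta
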